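import Fermat.Agent.S25.ZAR.Sep

/-!
# (sep) for rigidified line bundles in the Prelude's language (helper4770)
-/

set_option autoImplicit false

open CategoryTheory Limits AlgebraicGeometry AlgebraicGeometry.RelPicard NeronModelInfra
  TopologicalSpace Opposite

universe u

namespace Fermat.Agent.S25.ZAR

variable {R : Type u} [CommRing R] {C : Scheme.{u}} (c : C ⟶ Spec (CommRingCat.of R))

instance isOpenImmersion_baseChangeSnd {T T' : Scheme.{u}} {t : T ⟶ Spec (CommRingCat.of R)}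
    {t' : T' ⟶ Spec (CommRingCat.of R)} (s : SchemeHomOver t' t) [IsOpenImmersion s.1] :
    IsOpenImmersion (baseChangeSnd c s) := by
  unfold baseChangeSnd
  infer_instance

lemma opensRange_baseChangeSnd {T T' : Scheme.{u}} {t : T ⟶ Spec (CommRingCat.of R)}
    {t' : T' ⟶ Spec (CommRingCat.of R)} (s : SchemeHomOver t' t) [IsOpenImmersion s.1] :
    (baseChangeSnd c s).opensRange = (pullback.snd c t) ⁻¹ᵁ s.1.opensRange := by
  apply Opens.ext
  have h1 : ((baseChangeSnd c s).opensRange : Set _) = Set.range (baseChangeSnd c s) := rfl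
  rw [h1]
  unfold baseChangeSnd
  rw [Scheme.Pullback.range_map]
  ext x
  simp

/-- **(sep).**  Rigidified line bundles on `C ×_R T` that are isomorphic over the members of an
open cover of `T` are isomorphic, provided `Γ(T, W) → Γ(C_T, f⁻¹ W)` is surjective for all opens
`W` of `T`. -/
theorem rig_sep (ε : SchemeHomOver (𝟙 (Spec (CommRingCat.of R))) c) {T : Scheme.{u}}
    (t : T ⟶ Spec (CommRingCat.of R))
    (hO : ∀ W : T.Opens, Function.Surjective ((pullback.snd c t).app W))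
    (𝒰 : T.OpenCover) (M M' : RigidifiedLineBundle c ε t)
    (h : ∀ i, Nonempty
      ((M.pullbackAlong (⟨𝒰.f i, rfl⟩ : SchemeHomOver (𝒰.f i ≫ t) t)).L ≅
        (M'.pullbackAlong (⟨𝒰.f i, rfl⟩ : SchemeHomOver (𝒰.f i ≫ t) t)).L)) :
    Nonempty (M.L ≅ M'.L) := by
  have hσ : rigSection c t ε ≫ pullback.snd c t = 𝟙 T := pullback.lift_snd _ _ _
  obtain ⟨ρ⟩ := M.rigidified
  obtain ⟨ρ'⟩ := M'.rigidified
  have hcov : (⊤ : T.Opens) ≤ ⨆ i, (𝒰.f i).opensRange := by
    intro x _
    obtain ⟨i, y, hy⟩ := 𝒰.exists_eq x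
    exact Opens.mem_iSup.mpr ⟨i, ⟨y, hy⟩⟩
  refine sep_abstract (pullback.snd c t) (rigSection c t ε) hσ ρ.hom ρ'.hom hO
    (locInv_of_isInvertible M.isInvertible) (locInv_of_isInvertible M'.isInvertible)
    (fun i => (𝒰.f i).opensRange) hcov
    (fun i => (LocHom.ofPullbackIso
        (baseChangeSnd c (⟨𝒰.f i, rfl⟩ : SchemeHomOver (𝒰.f i ≫ t) t)) (h i).some).restrict
      (le_of_eq (opensRange_baseChangeSnd c
        (⟨𝒰.f i, rfl⟩ : SchemeHomOver (𝒰.f i ≫ t) t)).symm))
    (fun i => (LocHom.isIso_ofPullbackIso _ _).restrict _)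

end Fermat.Agent.S25.ZAR
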