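/-
S25 package ZAR — Z1, Z2, Z3: the hypothesis `hO` (`Γ(T, W) → Γ(C × T, f⁻¹ W)` surjective) from
the dictionary field `end_rigid` (helper4770).
-/
import Fermat.Agent.S25.SchDefs
import Fermat.Agent.S25.ZAR.RigSep

set_option autoImplicit false

universe u

namespace Fermat.Agent.S25.ZAR

open CategoryTheory CategoryTheory.Limits AlgebraicGeometry AlgebraicGeometry.RelPicard
  NeronModelInfra GoodReductionJacobian TopologicalSpace Opposite

section abstract

variable {X T : Scheme.{u}}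

/-- An endomorphism `β` of `L` with `β ≫ η = η` (`η` the unit of the pullback–pushforward
adjunction) pulls back to the identity. -/
lemma pullback_map_eq_id_of_unit (σ : T ⟶ X) (L : X.Modules) (β : L ⟶ L)
    (h : β ≫ (Scheme.Modules.pullbackPushforwardAdjunction σ).unit.app L =
      (Scheme.Modules.pullbackPushforwardAdjunction σ).unit.app L) :
    (Scheme.Modules.pullback σ).map β = 𝟙 _ := by
  apply ((Scheme.Modules.pullbackPushforwardAdjunction σ).homEquiv _ _).injective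
  rw [Adjunction.homEquiv_unit, Adjunction.homEquiv_unit]
  have := (Scheme.Modules.pullbackPushforwardAdjunction σ).unit.naturality β
  simp only [Functor.id_obj, Functor.id_map, Functor.comp_obj, Functor.comp_map] at this
  rw [← this, h]
  simp

/-- Multiplication by a global function, as an endomorphism of a sheaf of modules. -/
noncomputable def smulHom (L : X.Modules) (a : Γ(X, ⊤)) : L ⟶ L :=
  LocHom.toHom (LocHom.smul a (LocHom.id L ⊤))

lemma smulHom_app (L : X.Modules) (a : Γ(X, ⊤)) (V : X.Opens) (s : Γ(L, V)) :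
    (smulHom L a).app V s = resO (le_top : V ≤ ⊤) a • s := rfl

/-- Multiplication by a global function which is `1` along `σ` pulls back to the identity. -/
lemma pullback_map_smulHom (σ : T ⟶ X) (L : X.Modules) (a : Γ(X, ⊤))
    (ha : σ.app ⊤ a = 1) : (Scheme.Modules.pullback σ).map (smulHom L a) = 𝟙 _ := by
  apply pullback_map_eq_id_of_unit
  ext V s
  rw [Scheme.Modules.Hom.comp_app]
  obtain ⟨η, hη⟩ : ∃ η, η = (Scheme.Modules.pullbackPushforwardAdjunction σ).unit.app L :=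
    ⟨_, rfl⟩
  rw [← hη]
  show η.app V ((smulHom L a).app V s) = η.app V s
  rw [smulHom_app, Scheme.Modules.Hom.app_smul]
  have h1 : σ.app V (resO (le_top : V ≤ ⊤) a) = 1 := by
    rw [app_resO, ha, resO_one]
  have h2 : ∀ y : Γ((Scheme.Modules.pushforward σ).obj ((Scheme.Modules.pullback σ).obj L), V),
      resO (le_top : V ≤ ⊤) a • y = y := by
    intro y
    have : ofPush σ _ V (resO (le_top : V ≤ ⊤) a • y) = ofPush σ _ V y := by
      rw [ofPush_smul, h1, one_smul]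
    exact this
  exact h2 _

/-- Rigidity of functions gives surjectivity of `f♯`. -/
lemma surjective_app_of_rigid (f : X ⟶ T) (σ : T ⟶ X) (hσ : σ ≫ f = 𝟙 T) (W : T.Opens)
    (h1 : ∀ e : Γ(X, f ⁻¹ᵁ W), σ.app (f ⁻¹ᵁ W) e = 1 → e = 1) :
    Function.Surjective (f.app W) := by
  intro a
  have h : W ≤ σ ⁻¹ᵁ f ⁻¹ᵁ W := le_of_eq (preimage_preimage_eq f σ hσ W).symm
  have h' : σ ⁻¹ᵁ f ⁻¹ᵁ W ≤ W := le_of_eq (preimage_preimage_eq f σ hσ W)
  refine ⟨resO h (σ.app (f ⁻¹ᵁ W) a), ?_⟩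
  have he := h1 (a - f.app W (resO h (σ.app (f ⁻¹ᵁ W) a)) + 1) (by
    rw [map_add, map_sub, map_one, sigma_f_app' f σ hσ W _ h', resO_resO, resO_self, sub_self,
      zero_add])
  have h2 : a - f.app W (resO h (σ.app (f ⁻¹ᵁ W) a)) = 0 := by
    have := congrArg (fun x => x - 1) he
    simpa using this
  exact (sub_eq_zero.mp h2).symm

/-- Rigidity of functions is local on the base. -/
lemma rigid_of_cover (f : X ⟶ T) (σ : T ⟶ X) (W : T.Opens) {ι : Type*} (V : ι → T.Opens)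
    (hV : ∀ i, V i ≤ W) (hcov : W ≤ ⨆ i, V i)
    (h1 : ∀ i, ∀ e : Γ(X, f ⁻¹ᵁ V i), σ.app (f ⁻¹ᵁ V i) e = 1 → e = 1) :
    ∀ e : Γ(X, f ⁻¹ᵁ W), σ.app (f ⁻¹ᵁ W) e = 1 → e = 1 := by
  intro e he
  have hcov' : f ⁻¹ᵁ W ≤ ⨆ i, f ⁻¹ᵁ V i := by
    intro x hx
    obtain ⟨i, hi⟩ := Opens.mem_iSup.mp (hcov hx)
    exact Opens.mem_iSup.mpr ⟨i, hi⟩
  apply secO_ext (f ⁻¹ᵁ W) (fun i => f ⁻¹ᵁ V i) (fun i => f.preimage_mono (hV i)) hcov'
  intro i
  rw [resO_one]
  apply h1 i
  rw [app_resO, he, resO_one]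

lemma comp_app_apply {Y Z Z' : Scheme.{u}} (g : Y ⟶ Z) (g' : Z ⟶ Z') (U : Z'.Opens)
    (x : Γ(Z', U)) : (g ≫ g').app U x = g.app (g' ⁻¹ᵁ U) (g'.app U x) := rfl

lemma app_eq_one_congr {Y Z : Scheme.{u}} {g g' : Y ⟶ Z} (h : g = g') (U : Z.Opens)
    (x : Γ(Z, U)) (hx : g'.app U x = 1) : g.app U x = 1 := by
  subst h
  exact hx

/-- Rigidity of functions transfers along an open immersion. -/
lemma rigid_of_openImmersion {X' T' : Scheme.{u}} (σ : T ⟶ X) (σ' : T' ⟶ X') (b : X' ⟶ X)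
    [IsOpenImmersion b] (j : T' ⟶ T) (hb : σ' ≫ b = j ≫ σ) (U : X.Opens)
    (hU : U ≤ b.opensRange) (hU' : b.opensRange ≤ U)
    (h1 : ∀ e' : Γ(X', ⊤), σ'.app ⊤ e' = 1 → e' = 1) :
    ∀ e : Γ(X, U), σ.app U e = 1 → e = 1 := by
  intro e he
  have htop : (⊤ : X'.Opens) ≤ b ⁻¹ᵁ U := fun x _ => hU' ⟨x, rfl⟩
  have h2 : σ'.app (b ⁻¹ᵁ U) (b.app U e) = 1 := by
    have h3 : (σ' ≫ b).app U e = 1 := by
      apply app_eq_one_congr hb
      rw [comp_app_apply, he, map_one]
      rfl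
    rw [comp_app_apply] at h3
    exact h3
  have h4 : resO htop (b.app U e) = 1 := by
    apply h1
    rw [app_resO, h2, resO_one]
  have h5 : b.app U e = 1 := by
    have := congrArg (resO (le_top : b ⁻¹ᵁ U ≤ ⊤)) h4
    rw [resO_resO, resO_self, resO_one] at this
    exact this
  have hiso : IsIso (b.app U) := Scheme.Hom.isIso_app b U hU
  have hinj : Function.Injective (b.app U) :=
    ((ConcreteCategory.isIso_iff_bijective (b.app U)).mp hiso).1
  apply hinj
  rw [h5, map_one]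

end abstract

variable {k : Type u} [Field k] {C : Scheme.{u}} {c : C ⟶ Spec (CommRingCat.of k)}
  {ε : SchemeHomOver (𝟙 (Spec (CommRingCat.of k))) c} {𝒞 : CurveData k}

/-- **Z1.**  Affine base `Spec R`: a global function on `C × Spec R` which is `1` along the
section `ε` is `1`. -/
theorem eq_one_of_rigSection_app_eq_one (𝒟 : Dictionary c ε 𝒞) (R : Type u) [CommRing R]
    [Algebra k R] (a : Γ(pullback c (tR k R), ⊤))
    (ha : (rigSection c (tR k R) ε).app ⊤ a = 1) : a = 1 := by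
  have h := 𝒟.end_rigid (OO (pullback c (tR k R))) (Scheme.Modules.isInvertible_unit _)
    (smulHom _ a) (pullback_map_smulHom _ _ a ha)
  have h2 : (smulHom (OO (pullback c (tR k R))) a).app ⊤ (oToUnit ⊤ 1) = oToUnit ⊤ 1 := by
    rw [h]
    rfl
  rw [smulHom_app, resO_self, ← oToUnit_mul, mul_one] at h2
  exact h2

/-- Z1 for an arbitrary affine base `Spec S ⟶ Spec k`. -/
theorem eq_one_of_rigSection_app_eq_one' (𝒟 : Dictionary c ε 𝒞) {S : CommRingCat.{u}}
    (t' : Spec S ⟶ Spec (CommRingCat.of k)) (a : Γ(pullback c t', ⊤))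
    (ha : (rigSection c t' ε).app ⊤ a = 1) : a = 1 := by
  let _ : Algebra k S := (Spec.preimage t').hom.toAlgebra
  have ht : tR k S = t' := Spec.map_preimage t'
  revert a
  rw [← ht]
  intro a ha
  exact eq_one_of_rigSection_app_eq_one 𝒟 S a ha

/-- **Z3.**  The hypothesis `hO` of `rig_sep` / `rig_glue`, for every base `T` and every open
`W` of `T`. -/
theorem surjective_snd_app (𝒟 : Dictionary c ε 𝒞) {T : Scheme.{u}}
    (t : T ⟶ Spec (CommRingCat.of k)) (W : T.Opens) :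
    Function.Surjective ((pullback.snd c t).app W) := by
  have hσ : rigSection c t ε ≫ pullback.snd c t = 𝟙 T := pullback.lift_snd _ _ _
  apply surjective_app_of_rigid _ _ hσ W
  apply rigid_of_cover (pullback.snd c t) (rigSection c t ε) W
    (fun V : {V : T.Opens // IsAffineOpen V ∧ V ≤ W} => V.1) (fun V => V.2.2)
  · intro x hx
    obtain ⟨_, ⟨V, hV, rfl⟩, hxV, hVW⟩ :=
      T.isBasis_affineOpens.exists_subset_of_mem_open hx W.2
    exact Opens.mem_iSup.mpr ⟨⟨V, hV, hVW⟩, hxV⟩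
  · rintro ⟨V, hV, hVW⟩
    have hr := opensRange_baseChangeSnd c
      (⟨hV.fromSpec, rfl⟩ : SchemeHomOver (hV.fromSpec ≫ t) t)
    rw [hV.opensRange_fromSpec] at hr
    exact rigid_of_openImmersion (rigSection c t ε) (rigSection c (hV.fromSpec ≫ t) ε)
      (baseChangeSnd c (⟨hV.fromSpec, rfl⟩ : SchemeHomOver (hV.fromSpec ≫ t) t)) hV.fromSpec
      (rigSection_baseChangeSnd c ε _) _ (le_of_eq hr.symm) (le_of_eq hr)
      (eq_one_of_rigSection_app_eq_one' 𝒟 (hV.fromSpec ≫ t))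

/-- **Z2.**  Affine base: `R = Γ(Spec R, ⊤) → Γ(C × Spec R, ⊤)` is surjective. -/
theorem surjective_snd_appTop (𝒟 : Dictionary c ε 𝒞) (R : Type u) [CommRing R] [Algebra k R] :
    Function.Surjective ((pullback.snd c (tR k R)).app ⊤) :=
  surjective_snd_app 𝒟 (tR k R) ⊤

end Fermat.Agent.S25.ZAR
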