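/-
S25 package ZAR — SUB-SKELETON (captain helper4770).  See BOARD_S25_ZAR.md (origin/helper4770).

The frozen stub theorems `Fermat.Agent.S25.sep` / `.glue` (file `Fermat/Agent/S25/ZAR.lean`) are
derived at the end of this file from the sub-lemmas Z1–Z5 below.

* Z4 `rig_sep`  : DONE (`ZAR/RigSep.lean`, sorry-free).
* Z1 `eq_one_of_rigSection_app_eq_one`, Z2 `surjective_snd_appTop`, Z3 `surjective_snd_app`
  (the hypothesis `hO` from `𝒟.end_rigid`) : DONE (`ZAR/HO.lean`, sorry-free).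
  Hence `sep` is DONE (`sep_plan` below has no sorry in its closure).
* Z5 `rig_glue` : helper270 (on `ZAR/{Loc,LocRestr,Inv,Ev}` = former `H4770/*`, verbatim up to the
  namespace).
-/
import Fermat.Agent.S25.SchDefs
import Fermat.Agent.S25.ZAR.HO
import Fermat.Agent.S25.ZAR.H1891.RigUniv

set_option autoImplicit false

universe u

namespace Fermat.Agent.S25.ZAR

open CategoryTheory CategoryTheory.Limits AlgebraicGeometry AlgebraicGeometry.RelPicard
  NeronModelInfra GoodReductionJacobian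

variable {k : Type u} [Field k] {C : Scheme.{u}} {c : C ⟶ Spec (CommRingCat.of k)}
  {ε : SchemeHomOver (𝟙 (Spec (CommRingCat.of k))) c} {𝒞 : CurveData k}

/-- **Z5.**  (glue) under `hO` (for all bases, so that it can also be used on the members of the
cover and on the overlaps). -/
theorem rig_glue (c : C ⟶ Spec (CommRingCat.of k))
    (ε : SchemeHomOver (𝟙 (Spec (CommRingCat.of k))) c)
    (hO : ∀ {T' : Scheme.{u}} (t' : T' ⟶ Spec (CommRingCat.of k)) (W : T'.Opens),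
      Function.Surjective ((pullback.snd c t').app W))
    {T : Scheme.{u}} (t : T ⟶ Spec (CommRingCat.of k))
    (𝒰 : T.OpenCover) (M : ∀ a, RigidifiedLineBundle c ε (𝒰.f a ≫ t))
    (h : ∀ a b, Nonempty
      (((M a).pullbackAlong (⟨pullback.fst (𝒰.f a) (𝒰.f b), rfl⟩ :
          SchemeHomOver (pullback.fst (𝒰.f a) (𝒰.f b) ≫ 𝒰.f a ≫ t) (𝒰.f a ≫ t))).L ≅
        ((M b).pullbackAlong (⟨pullback.snd (𝒰.f a) (𝒰.f b), by
            rw [← Category.assoc, ← pullback.condition, Category.assoc]⟩ :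
          SchemeHomOver (pullback.fst (𝒰.f a) (𝒰.f b) ≫ 𝒰.f a ≫ t) (𝒰.f b ≫ t))).L)) :
    ∃ N : RigidifiedLineBundle c ε t, ∀ a, Nonempty
      ((N.pullbackAlong (⟨𝒰.f a, rfl⟩ : SchemeHomOver (𝒰.f a ≫ t) t)).L ≅ (M a).L) :=
  ZAR.H1891.rig_glue' (fun t' W a => hO t' W a) t 𝒰 M h

end Fermat.Agent.S25.ZAR

namespace Fermat.Agent.S25

open CategoryTheory CategoryTheory.Limits AlgebraicGeometry AlgebraicGeometry.RelPicard
  NeronModelInfra GoodReductionJacobian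

variable {k : Type u} [Field k] {C : Scheme.{u}} {c : C ⟶ Spec (CommRingCat.of k)}
  {ε : SchemeHomOver (𝟙 (Spec (CommRingCat.of k))) c} {𝒞 : CurveData k}

/-- (sep), frozen statement of `Fermat/Agent/S25/ZAR.lean`, from Z3 + Z4. -/
theorem sep_plan (𝒟 : Dictionary c ε 𝒞) {T : Scheme.{u}} (t : T ⟶ Spec (CommRingCat.of k))
    (M M' : RigidifiedLineBundle c ε t) (𝒰 : T.OpenCover)
    (h : ∀ a, Nonempty
      ((M.pullbackAlong (⟨𝒰.f a, rfl⟩ : SchemeHomOver (𝒰.f a ≫ t) t)).L ≅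
        (M'.pullbackAlong (⟨𝒰.f a, rfl⟩ : SchemeHomOver (𝒰.f a ≫ t) t)).L)) :
    Nonempty (M.L ≅ M'.L) :=
  ZAR.rig_sep c ε t (ZAR.surjective_snd_app 𝒟 t) 𝒰 M M' h

/-- (glue), frozen statement of `Fermat/Agent/S25/ZAR.lean`, from Z3 + Z5. -/
theorem glue_plan (𝒟 : Dictionary c ε 𝒞) {T : Scheme.{u}} (t : T ⟶ Spec (CommRingCat.of k))
    (𝒰 : T.OpenCover) (M : ∀ a, RigidifiedLineBundle c ε (𝒰.f a ≫ t))
    (h : ∀ a b, Nonempty
      (((M a).pullbackAlong (⟨pullback.fst (𝒰.f a) (𝒰.f b), rfl⟩ :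
          SchemeHomOver (pullback.fst (𝒰.f a) (𝒰.f b) ≫ 𝒰.f a ≫ t) (𝒰.f a ≫ t))).L ≅
        ((M b).pullbackAlong (⟨pullback.snd (𝒰.f a) (𝒰.f b), by
            rw [← Category.assoc, ← pullback.condition, Category.assoc]⟩ :
          SchemeHomOver (pullback.fst (𝒰.f a) (𝒰.f b) ≫ 𝒰.f a ≫ t) (𝒰.f b ≫ t))).L)) :
    ∃ N : RigidifiedLineBundle c ε t, ∀ a, Nonempty
      ((N.pullbackAlong (⟨𝒰.f a, rfl⟩ : SchemeHomOver (𝒰.f a ≫ t) t)).L ≅ (M a).L) :=
  ZAR.rig_glue c ε (fun t' W => ZAR.surjective_snd_app 𝒟 t' W) t 𝒰 M h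

end Fermat.Agent.S25
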