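import Fermat.Agent.S25.ZAR.Inv

/-!
# Evaluation of sections along a morphism `σ : T ⟶ X` (helper4770)

A morphism `ρ : σ^* L ⟶ 𝒪_T` is used only through its adjoint `L ⟶ σ_* 𝒪_T`, i.e. through the
maps `ev_V : Γ(L, V) → Γ(T, σ⁻¹V)`.  If `ρ` is an isomorphism then `ev` sends generators of `L`
to units.
-/

set_option autoImplicit false

open CategoryTheory Limits AlgebraicGeometry TopologicalSpace Opposite

universe u

namespace Fermat.Agent.S25.ZAR

variable {X T : Scheme.{u}}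

section push

variable (σ : T ⟶ X) (N : T.Modules)

/-- Identity cast `Γ(N, σ⁻¹V) → Γ(σ_* N, V)`. -/
noncomputable def toPush (V : X.Opens) (y : Γ(N, σ ⁻¹ᵁ V)) :
    Γ((Scheme.Modules.pushforward σ).obj N, V) := y

/-- Identity cast `Γ(σ_* N, V) → Γ(N, σ⁻¹V)`. -/
noncomputable def ofPush (V : X.Opens) (y : Γ((Scheme.Modules.pushforward σ).obj N, V)) :
    Γ(N, σ ⁻¹ᵁ V) := y

@[simp] lemma ofPush_toPush (V : X.Opens) (y : Γ(N, σ ⁻¹ᵁ V)) :
    ofPush σ N V (toPush σ N V y) = y := rfl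

@[simp] lemma toPush_ofPush (V : X.Opens) (y : Γ((Scheme.Modules.pushforward σ).obj N, V)) :
    toPush σ N V (ofPush σ N V y) = y := rfl

lemma ofPush_add (V : X.Opens) (y y' : Γ((Scheme.Modules.pushforward σ).obj N, V)) :
    ofPush σ N V (y + y') = ofPush σ N V y + ofPush σ N V y' := rfl

lemma toPush_add (V : X.Opens) (y y' : Γ(N, σ ⁻¹ᵁ V)) :
    toPush σ N V (y + y') = toPush σ N V y + toPush σ N V y' := rfl

lemma ofPush_smul (V : X.Opens) (r : Γ(X, V)) (y : Γ((Scheme.Modules.pushforward σ).obj N, V)) :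
    ofPush σ N V (r • y) = (σ.app V r : Γ(T, σ ⁻¹ᵁ V)) • ofPush σ N V y := rfl

lemma toPush_smul (V : X.Opens) (r : Γ(X, V)) (y : Γ(N, σ ⁻¹ᵁ V)) :
    toPush σ N V ((σ.app V r : Γ(T, σ ⁻¹ᵁ V)) • y) = r • toPush σ N V y := rfl

lemma ofPush_res {V V' : X.Opens} (h : V' ≤ V) (y : Γ((Scheme.Modules.pushforward σ).obj N, V)) :
    ofPush σ N V' (res _ h y) = res N (σ.preimage_mono h) (ofPush σ N V y) := rfl

lemma toPush_res {V V' : X.Opens} (h : V' ≤ V) (y : Γ(N, σ ⁻¹ᵁ V)) :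
    toPush σ N V' (res N (σ.preimage_mono h) y) = res _ h (toPush σ N V y) := rfl

lemma ofPush_map {N N' : T.Modules} (g : N ⟶ N') (V : X.Opens)
    (y : Γ((Scheme.Modules.pushforward σ).obj N, V)) :
    ofPush σ N' V (((Scheme.Modules.pushforward σ).map g).app V y) =
      g.app (σ ⁻¹ᵁ V) (ofPush σ N V y) := rfl

end push

/-- Naturality of `σ.app` with respect to restriction. -/
lemma app_resO (σ : T ⟶ X) {V V' : X.Opens} (h : V' ≤ V) (r : Γ(X, V)) :
    σ.app V' (resO h r) = resO (σ.preimage_mono h) (σ.app V r) := by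
  have := σ.naturality (homOfLE h).op
  exact congr($this r)

section ev

variable (σ : T ⟶ X) (L : X.Modules) (ρ : (Scheme.Modules.pullback σ).obj L ⟶ OO T)

/-- The adjoint `L ⟶ σ_* 𝒪_T` of `ρ : σ^* L ⟶ 𝒪_T`. -/
noncomputable def evHom : L ⟶ (Scheme.Modules.pushforward σ).obj (OO T) :=
  (Scheme.Modules.pullbackPushforwardAdjunction σ).homEquiv L (OO T) ρ

/-- Evaluation of sections of `L` along `σ` (through `ρ`). -/
noncomputable def ev (V : X.Opens) (s : Γ(L, V)) : Γ(T, σ ⁻¹ᵁ V) :=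
  unitToO _ (ofPush σ (OO T) V ((evHom σ L ρ).app V s))

lemma ev_add (V : X.Opens) (s t : Γ(L, V)) : ev σ L ρ V (s + t) = ev σ L ρ V s + ev σ L ρ V t := by
  simp only [ev, map_add, ofPush_add, unitToO_add]

lemma ev_smul (V : X.Opens) (r : Γ(X, V)) (s : Γ(L, V)) :
    ev σ L ρ V (r • s) = σ.app V r * ev σ L ρ V s := by
  simp only [ev, Scheme.Modules.Hom.app_smul, ofPush_smul, unitToO_smul]

lemma ev_res {V V' : X.Opens} (h : V' ≤ V) (s : Γ(L, V)) :
    ev σ L ρ V' (res L h s) = resO (σ.preimage_mono h) (ev σ L ρ V s) := by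
  have := (LocHom.ofHom (evHom σ L ρ) ⊤).map_res V V' le_top h s
  simp only [LocHom.ofHom_app] at this
  simp only [ev, this, ofPush_res, unitToO_res]

end ev


section ext

variable (N : T.Modules) (W : T.Opens)

/-- The sheaf `(ι_W)_* (N|_W)` on `T`. -/
noncomputable def extSheaf : T.Modules :=
  (Scheme.Modules.pushforward W.ι).obj (N.restrict W.ι)

/-- Identity cast for sections of `extSheaf`. -/
noncomputable def ofExt (W' : T.Opens) (y : Γ(extSheaf N W, W')) : Γ(N, W.ι ''ᵁ W.ι ⁻¹ᵁ W') := y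

/-- Identity cast for sections of `extSheaf`. -/
noncomputable def toExt (W' : T.Opens) (y : Γ(N, W.ι ''ᵁ W.ι ⁻¹ᵁ W')) : Γ(extSheaf N W, W') := y

@[simp] lemma ofExt_toExt (W' : T.Opens) (y : Γ(N, W.ι ''ᵁ W.ι ⁻¹ᵁ W')) :
    ofExt N W W' (toExt N W W' y) = y := rfl

@[simp] lemma toExt_ofExt (W' : T.Opens) (y : Γ(extSheaf N W, W')) :
    toExt N W W' (ofExt N W W' y) = y := rfl

lemma toExt_add (W' : T.Opens) (y y' : Γ(N, W.ι ''ᵁ W.ι ⁻¹ᵁ W')) :
    toExt N W W' (y + y') = toExt N W W' y + toExt N W W' y' := rfl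

lemma ofExt_add (W' : T.Opens) (y y' : Γ(extSheaf N W, W')) :
    ofExt N W W' (y + y') = ofExt N W W' y + ofExt N W W' y' := rfl

lemma ofExt_smul (W' : T.Opens) (r : Γ(T, W')) (y : Γ(extSheaf N W, W')) :
    ofExt N W W' (r • y) = resO (W.ι.image_preimage_le W') r • ofExt N W W' y := by
  change ((W.ι.appIso (W.ι ⁻¹ᵁ W')).inv (W.ι.app W' r) : Γ(T, W.ι ''ᵁ W.ι ⁻¹ᵁ W')) •
    ofExt N W W' y = _
  congr 1
  exact congr($(W.ι.app_appIso_inv W') r)

lemma toExt_smul (W' : T.Opens) (r : Γ(T, W')) (y : Γ(N, W.ι ''ᵁ W.ι ⁻¹ᵁ W')) :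
    toExt N W W' (resO (W.ι.image_preimage_le W') r • y) = r • toExt N W W' y := by
  have := ofExt_smul N W W' r (toExt N W W' y)
  rw [ofExt_toExt] at this
  rw [← this, toExt_ofExt]

lemma ofExt_res {W' W'' : T.Opens} (h : W'' ≤ W') (y : Γ(extSheaf N W, W')) :
    ofExt N W W'' (res _ h y) =
      res N (W.ι.image_mono (W.ι.preimage_mono h)) (ofExt N W W' y) := rfl

lemma toExt_res {W' W'' : T.Opens} (h : W'' ≤ W') (y : Γ(N, W.ι ''ᵁ W.ι ⁻¹ᵁ W')) :
    toExt N W W'' (res N (W.ι.image_mono (W.ι.preimage_mono h)) y) =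
      res _ h (toExt N W W' y) := rfl

lemma ext_le (W' : T.Opens) : W.ι ''ᵁ W.ι ⁻¹ᵁ W' ≤ W' ⊓ W := by
  rw [W.ι.image_preimage_eq_opensRange_inf, Scheme.Opens.opensRange_ι, inf_comm]

lemma le_ext (W' : T.Opens) : W' ⊓ W ≤ W.ι ''ᵁ W.ι ⁻¹ᵁ W' := by
  rw [W.ι.image_preimage_eq_opensRange_inf, Scheme.Opens.opensRange_ι, inf_comm]

end ext


section gen

variable {L : X.Modules} {U : X.Opens} {s : Γ(L, U)}

/-- The coefficient morphism `L|_U ⟶ 𝒪|_U` attached to a generator. -/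
noncomputable def IsGen.coefHom (hs : IsGen L U s) : LocHom L (OO X) U :=
  (secHom L s).inv ((isIso_secHom_iff L s).mpr hs)

lemma IsGen.coefHom_smul (hs : IsGen L U s) (V : X.Opens) (h : V ≤ U) (t : Γ(L, V)) :
    unitToO V (hs.coefHom.app V h t) • res L h s = t :=
  LocHom.app_inv_app (secHom L s) ((isIso_secHom_iff L s).mpr hs) V h t

lemma IsGen.coefHom_self (hs : IsGen L U s) : hs.coefHom.app U le_rfl s = oToUnit U 1 := by
  have h1 : (secHom L s).app U le_rfl (oToUnit U 1) = s := by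
    simp [secHom_app]
  have := LocHom.inv_app_app (secHom L s) ((isIso_secHom_iff L s).mpr hs) U le_rfl (oToUnit U 1)
  rw [h1] at this
  exact this

end gen

section unitev

variable (σ : T ⟶ X) {L : X.Modules} {U : X.Opens} {s : Γ(L, U)}

lemma ext_le' (U V : X.Opens) :
    (σ ⁻¹ᵁ U).ι ''ᵁ (σ ⁻¹ᵁ U).ι ⁻¹ᵁ (σ ⁻¹ᵁ V) ≤ σ ⁻¹ᵁ (V ⊓ U) :=
  ext_le (σ ⁻¹ᵁ U) (σ ⁻¹ᵁ V)

/-- The morphism `L ⟶ σ_* (ι_W)_* 𝒪_W` (`W = σ⁻¹U`) attached to a generator of `L` over `U`. -/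
noncomputable def betaLoc (hs : IsGen L U s) :
    LocHom L ((Scheme.Modules.pushforward σ).obj (extSheaf (OO T) (σ ⁻¹ᵁ U))) ⊤ where
  app V _ t := toPush σ _ V (toExt (OO T) (σ ⁻¹ᵁ U) (σ ⁻¹ᵁ V)
    (oToUnit _ (resO (ext_le' σ U V)
      (σ.app (V ⊓ U) (unitToO _ (hs.coefHom.app (V ⊓ U) inf_le_right (res L inf_le_left t)))))))
  map_add V _ t t' := by
    rw [res_add, hs.coefHom.map_add, unitToO_add, map_add, resO_add, oToUnit_add, toExt_add,
      toPush_add]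
  map_smul V _ r t := by
    rw [res_smul, hs.coefHom.map_smul, unitToO_smul, map_mul, resO_mul, oToUnit_mul,
      app_resO, resO_resO, ← toPush_smul, ← toExt_smul]
  map_res V V' _ h' t := by
    have h1 : V' ⊓ U ≤ V ⊓ U := inf_le_inf_right _ h'
    have e1 : res L (inf_le_left : V' ⊓ U ≤ V') (res L h' t) =
        res L h1 (res L inf_le_left t) := by rw [res_res, res_res]
    rw [e1, hs.coefHom.map_res (V ⊓ U) (V' ⊓ U) inf_le_right h1, unitToO_res, app_resO,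
      resO_resO, ← toPush_res, ← toExt_res, oToUnit_res, resO_resO]


/-- If `ρ : σ^* L ⟶ 𝒪_T` is an isomorphism, then `ev` sends a generator of `L` over `U` to a
unit of `Γ(T, σ⁻¹U)`. -/
theorem isUnit_ev_of_isGen (ρ : (Scheme.Modules.pullback σ).obj L ⟶ OO T) [CategoryTheory.IsIso ρ]
    (hs : IsGen L U s) : IsUnit (ev σ L ρ U s) := by
  let W : T.Opens := σ ⁻¹ᵁ U
  let N' : T.Modules := extSheaf (OO T) W
  let adj := Scheme.Modules.pullbackPushforwardAdjunction σ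
  let β : L ⟶ (Scheme.Modules.pushforward σ).obj N' := (betaLoc σ hs).toHom
  let g : OO T ⟶ N' := inv ρ ≫ (adj.homEquiv L N').symm β
  have hfac : evHom σ L ρ ≫ (Scheme.Modules.pushforward σ).map g = β := by
    have h1 := adj.homEquiv_naturality_right ρ g
    have h2 : ρ ≫ g = (adj.homEquiv L N').symm β := by simp [g]
    rw [h2, Equiv.apply_symm_apply] at h1
    exact h1.symm
  -- evaluate both sides at `s`
  have hL : ofPush σ N' U ((evHom σ L ρ ≫ (Scheme.Modules.pushforward σ).map g).app U s) =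
      ev σ L ρ U s • g.app W (oToUnit W 1) := by
    rw [Scheme.Modules.Hom.comp_app]
    change ofPush σ N' U (((Scheme.Modules.pushforward σ).map g).app U ((evHom σ L ρ).app U s)) = _
    rw [ofPush_map, ← Scheme.Modules.Hom.app_smul, ← oToUnit_mul, mul_one]
    rfl
  have hcoef : hs.coefHom.app (U ⊓ U) inf_le_right (res L inf_le_left s) = oToUnit (U ⊓ U) 1 := by
    have h1 := hs.coefHom.map_res U (U ⊓ U) le_rfl inf_le_left s
    rw [hs.coefHom_self, oToUnit_res, resO_one] at h1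
    exact h1
  have hR : ofPush σ N' U (β.app U s) =
      toExt (OO T) W (σ ⁻¹ᵁ U) (oToUnit _ 1) := by
    change ofPush σ N' U ((betaLoc σ hs).app U le_top s) = _
    change toExt (OO T) W (σ ⁻¹ᵁ U) (oToUnit _ (resO (ext_le' σ U U)
      (σ.app (U ⊓ U) (unitToO _ (hs.coefHom.app (U ⊓ U) inf_le_right (res L inf_le_left s)))))) = _
    rw [hcoef, unitToO_oToUnit, map_one, resO_one]
  have hkey : ofExt (OO T) W (σ ⁻¹ᵁ U) (ev σ L ρ U s • g.app W (oToUnit W 1)) = oToUnit _ 1 := by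
    rw [← hL, hfac, hR, ofExt_toExt]
  rw [ofExt_smul] at hkey
  have hkey2 := congrArg (unitToO _) hkey
  rw [unitToO_smul, unitToO_oToUnit] at hkey2
  have hb : W ≤ W.ι ''ᵁ W.ι ⁻¹ᵁ W := (le_inf le_rfl le_rfl).trans (le_ext W W)
  have hkey3 := congrArg (resO hb) hkey2
  rw [resO_mul, resO_resO, resO_self, resO_one] at hkey3
  exact IsUnit.of_mul_eq_one _ hkey3

end unitev

end Fermat.Agent.S25.ZAR
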