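import Mathlib
import Fermat.Prelude.Def_AlgebraicGeometry_RelativePicardFunctor

/-!
# Local morphisms of sheaves of modules on a scheme, in sections form (helper4770)

`LocHom M N U` is the set of morphisms `M|_U ⟶ N|_U`, presented as compatible families of
`𝒪`-linear maps `Γ(M, V) → Γ(N, V)` for all opens `V ≤ U` of the ONE scheme `X`.  Restriction
to smaller opens is strict, local morphisms glue (sheaf property of `N`), and
`LocHom M N ⊤` is the same as `M ⟶ N`.
-/

set_option autoImplicit false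

open CategoryTheory Limits AlgebraicGeometry TopologicalSpace Opposite

universe u

namespace Fermat.Agent.S25.ZAR

variable {X : Scheme.{u}}

/-- Restriction of sections of a sheaf of modules. -/
noncomputable def res (M : X.Modules) {U V : X.Opens} (h : V ≤ U) (s : Γ(M, U)) : Γ(M, V) :=
  M.presheaf.map (homOfLE h).op s

/-- Restriction of sections of the structure sheaf. -/
noncomputable def resO {U V : X.Opens} (h : V ≤ U) (r : Γ(X, U)) : Γ(X, V) :=
  X.presheaf.map (homOfLE h).op r

section res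

variable (M : X.Modules)

@[simp] lemma res_res {U V W : X.Opens} (h : V ≤ U) (h' : W ≤ V) (s : Γ(M, U)) :
    res M h' (res M h s) = res M (h'.trans h) s := by
  simp only [res]
  rw [← ConcreteCategory.comp_apply, ← M.presheaf.map_comp]
  rfl

@[simp] lemma res_self {U : X.Opens} (h : U ≤ U) (s : Γ(M, U)) : res M h s = s := by
  simp only [res]
  have : (homOfLE h).op = 𝟙 (op U) := rfl
  rw [this, M.presheaf.map_id]
  rfl

lemma res_add {U V : X.Opens} (h : V ≤ U) (s t : Γ(M, U)) :
    res M h (s + t) = res M h s + res M h t := by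
  simp only [res, map_add]

lemma res_zero {U V : X.Opens} (h : V ≤ U) : res M h (0 : Γ(M, U)) = 0 := by
  simp only [res, map_zero]

lemma res_neg {U V : X.Opens} (h : V ≤ U) (s : Γ(M, U)) : res M h (-s) = -res M h s := by
  simp only [res, map_neg]

lemma res_sub {U V : X.Opens} (h : V ≤ U) (s t : Γ(M, U)) :
    res M h (s - t) = res M h s - res M h t := by
  simp only [res, map_sub]

lemma res_smul {U V : X.Opens} (h : V ≤ U) (r : Γ(X, U)) (s : Γ(M, U)) :
    res M h (r • s) = resO h r • res M h s :=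
  Scheme.Modules.map_smul M (homOfLE h) r s

lemma res_congr {U V : X.Opens} (h h' : V ≤ U) (s : Γ(M, U)) : res M h s = res M h' s := rfl

/-- Injectivity of restriction along an equality of opens. -/
lemma res_injective_of_eq {U V : X.Opens} (h : V ≤ U) (h' : U ≤ V) :
    Function.Injective (res M h : Γ(M, U) → Γ(M, V)) := by
  intro s t hst
  have := congrArg (res M h') hst
  simpa using this

lemma res_surjective_of_eq {U V : X.Opens} (h : V ≤ U) (h' : U ≤ V) :
    Function.Surjective (res M h : Γ(M, U) → Γ(M, V)) := by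
  intro s
  exact ⟨res M h' s, by simp⟩

end res

section resO

@[simp] lemma resO_resO {U V W : X.Opens} (h : V ≤ U) (h' : W ≤ V) (r : Γ(X, U)) :
    resO h' (resO h r) = resO (h'.trans h) r := by
  simp only [resO]
  rw [← CommRingCat.comp_apply, ← X.presheaf.map_comp]
  rfl

@[simp] lemma resO_self {U : X.Opens} (h : U ≤ U) (r : Γ(X, U)) : resO h r = r := by
  simp only [resO]
  have : (homOfLE h).op = 𝟙 (op U) := rfl
  rw [this, X.presheaf.map_id]
  rfl

lemma resO_add {U V : X.Opens} (h : V ≤ U) (r r' : Γ(X, U)) :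
    resO h (r + r') = resO h r + resO h r' := by
  simp only [resO, map_add]

lemma resO_mul {U V : X.Opens} (h : V ≤ U) (r r' : Γ(X, U)) :
    resO h (r * r') = resO h r * resO h r' := by
  simp only [resO, map_mul]

@[simp] lemma resO_one {U V : X.Opens} (h : V ≤ U) : resO h (1 : Γ(X, U)) = 1 := by
  simp only [resO, map_one]

@[simp] lemma resO_zero {U V : X.Opens} (h : V ≤ U) : resO h (0 : Γ(X, U)) = 0 := by
  simp only [resO, map_zero]

lemma resO_sub {U V : X.Opens} (h : V ≤ U) (r r' : Γ(X, U)) :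
    resO h (r - r') = resO h r - resO h r' := by
  simp only [resO, map_sub]

end resO

section gluing

variable (N : X.Modules)

/-- Sections of a sheaf of modules are determined locally. -/
lemma sec_ext {ι : Type*} (V : X.Opens) (U : ι → X.Opens) (hU : ∀ i, U i ≤ V)
    (hcov : V ≤ ⨆ i, U i) (s t : Γ(N, V))
    (h : ∀ i, res N (hU i) s = res N (hU i) t) : s = t :=
  TopCat.Sheaf.eq_of_locally_eq' (⟨N.presheaf, N.isSheaf⟩ : TopCat.Sheaf Ab X) U V
    (fun i => homOfLE (hU i)) hcov s t h

/-- Sections of a sheaf of modules glue. -/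
lemma sec_glue {ι : Type*} (V : X.Opens) (U : ι → X.Opens) (hU : ∀ i, U i ≤ V)
    (hcov : V ≤ ⨆ i, U i) (sf : ∀ i, Γ(N, U i))
    (hsf : ∀ i j, res N (inf_le_left : U i ⊓ U j ≤ U i) (sf i) =
      res N (inf_le_right : U i ⊓ U j ≤ U j) (sf j)) :
    ∃! s : Γ(N, V), ∀ i, res N (hU i) s = sf i :=
  TopCat.Sheaf.existsUnique_gluing' (⟨N.presheaf, N.isSheaf⟩ : TopCat.Sheaf Ab X) U V
    (fun i => homOfLE (hU i)) hcov sf hsf

end gluing


/-- A local morphism `M|_U ⟶ N|_U` in sections form. -/
structure LocHom (M N : X.Modules) (U : X.Opens) where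
  app : ∀ V : X.Opens, V ≤ U → Γ(M, V) → Γ(N, V)
  map_add : ∀ (V : X.Opens) (h : V ≤ U) (s t : Γ(M, V)), app V h (s + t) = app V h s + app V h t
  map_smul : ∀ (V : X.Opens) (h : V ≤ U) (r : Γ(X, V)) (s : Γ(M, V)),
    app V h (r • s) = r • app V h s
  map_res : ∀ (V V' : X.Opens) (h : V ≤ U) (h' : V' ≤ V) (s : Γ(M, V)),
    app V' (h'.trans h) (res M h' s) = res N h' (app V h s)

namespace LocHom

variable {M N P : X.Modules} {U : X.Opens}

@[ext] lemma ext {φ ψ : LocHom M N U}
    (h : ∀ (V : X.Opens) (hV : V ≤ U) (s : Γ(M, V)), φ.app V hV s = ψ.app V hV s) : φ = ψ := by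
  cases φ; cases ψ
  congr
  funext V hV s
  exact h V hV s

lemma map_zero (φ : LocHom M N U) (V : X.Opens) (h : V ≤ U) : φ.app V h 0 = 0 := by
  have := φ.map_add V h 0 0
  simpa using this

lemma map_neg (φ : LocHom M N U) (V : X.Opens) (h : V ≤ U) (s : Γ(M, V)) :
    φ.app V h (-s) = -φ.app V h s := by
  have := φ.map_add V h s (-s)
  rw [add_neg_cancel, φ.map_zero] at this
  exact eq_neg_of_add_eq_zero_right this.symm

lemma map_sub (φ : LocHom M N U) (V : X.Opens) (h : V ≤ U) (s t : Γ(M, V)) :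
    φ.app V h (s - t) = φ.app V h s - φ.app V h t := by
  rw [sub_eq_add_neg, φ.map_add, φ.map_neg, sub_eq_add_neg]

/-- Restriction of a local morphism to a smaller open. -/
def restrict (φ : LocHom M N U) {U' : X.Opens} (h : U' ≤ U) : LocHom M N U' where
  app V hV := φ.app V (hV.trans h)
  map_add V _ := φ.map_add V _
  map_smul V _ := φ.map_smul V _
  map_res V V' _ hV' := φ.map_res V V' _ hV'

@[simp] lemma restrict_app (φ : LocHom M N U) {U' : X.Opens} (h : U' ≤ U) (V : X.Opens)
    (hV : V ≤ U') (s : Γ(M, V)) : (φ.restrict h).app V hV s = φ.app V (hV.trans h) s := rfl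

/-- The identity local morphism. -/
def id (M : X.Modules) (U : X.Opens) : LocHom M M U where
  app _ _ s := s
  map_add _ _ _ _ := rfl
  map_smul _ _ _ _ := rfl
  map_res _ _ _ _ _ := rfl

/-- Composition of local morphisms. -/
def comp (φ : LocHom M N U) (ψ : LocHom N P U) : LocHom M P U where
  app V h s := ψ.app V h (φ.app V h s)
  map_add V h s t := by rw [φ.map_add, ψ.map_add]
  map_smul V h r s := by rw [φ.map_smul, ψ.map_smul]
  map_res V V' h h' s := by rw [φ.map_res, ψ.map_res]

@[simp] lemma id_app (V : X.Opens) (h : V ≤ U) (s : Γ(M, V)) : (LocHom.id M U).app V h s = s := rfl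

@[simp] lemma comp_app (φ : LocHom M N U) (ψ : LocHom N P U) (V : X.Opens) (h : V ≤ U)
    (s : Γ(M, V)) : (φ.comp ψ).app V h s = ψ.app V h (φ.app V h s) := rfl

/-- Scalar multiplication of a local morphism by a section of the structure sheaf. -/
noncomputable def smul (u : Γ(X, U)) (φ : LocHom M N U) : LocHom M N U where
  app V h s := resO h u • φ.app V h s
  map_add V h s t := by rw [φ.map_add, _root_.smul_add]
  map_smul V h r s := by rw [φ.map_smul, smul_smul, smul_smul, mul_comm]
  map_res V V' h h' s := by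
    rw [φ.map_res, res_smul, resO_resO]

@[simp] lemma smul_app (u : Γ(X, U)) (φ : LocHom M N U) (V : X.Opens) (h : V ≤ U)
    (s : Γ(M, V)) : (smul u φ).app V h s = resO h u • φ.app V h s := rfl

/-- The local morphism induced by a global morphism. -/
noncomputable def ofHom (f : M ⟶ N) (U : X.Opens) : LocHom M N U where
  app V _ s := f.app V s
  map_add V _ s t := by simp
  map_smul V _ r s := Scheme.Modules.Hom.app_smul f r s
  map_res V V' _ h' s := by
    have := f.mapPresheaf.naturality (homOfLE h').op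
    exact congr($this s)

@[simp] lemma ofHom_app (f : M ⟶ N) (U V : X.Opens) (h : V ≤ U) (s : Γ(M, V)) :
    (ofHom f U).app V h s = f.app V s := rfl

/-- A local morphism on `⊤` is a global morphism. -/
noncomputable def toHom (φ : LocHom M N ⊤) : M ⟶ N :=
  ⟨PresheafOfModules.homMk
    { app := fun V => AddCommGrpCat.ofHom
        { toFun := φ.app V.unop le_top
          map_zero' := φ.map_zero _ _
          map_add' := φ.map_add _ _ }
      naturality := fun V V' i => by
        ext s
        exact φ.map_res V.unop V'.unop le_top (leOfHom i.unop) s }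
    (fun V r s => φ.map_smul V.unop le_top r s)⟩

@[simp] lemma toHom_app (φ : LocHom M N ⊤) (V : X.Opens) (s : Γ(M, V)) :
    (toHom φ).app V s = φ.app V le_top s := rfl


lemma le_iSup_inf {ι : Type*} {V U : X.Opens} (Uc : ι → X.Opens) (hV : V ≤ U)
    (hcov : U ≤ ⨆ i, Uc i) : V ≤ ⨆ i, V ⊓ Uc i := by
  calc V = V ⊓ ⨆ i, Uc i := (inf_eq_left.mpr (hV.trans hcov)).symm
    _ = ⨆ i, V ⊓ Uc i := inf_iSup_eq _ _
    _ ≤ ⨆ i, V ⊓ Uc i := le_rfl

/-- Local morphisms are determined locally. -/
lemma ext_of_cover {ι : Type*} (Uc : ι → X.Opens) (hU : ∀ i, Uc i ≤ U) (hcov : U ≤ ⨆ i, Uc i)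
    {φ ψ : LocHom M N U} (h : ∀ i, φ.restrict (hU i) = ψ.restrict (hU i)) : φ = ψ := by
  ext V hV s
  refine sec_ext N V (fun i => V ⊓ Uc i) (fun i => inf_le_left) (le_iSup_inf Uc hV hcov) _ _ ?_
  intro i
  rw [← φ.map_res V (V ⊓ Uc i) hV inf_le_left s, ← ψ.map_res V (V ⊓ Uc i) hV inf_le_left s]
  have := congrArg (fun χ : LocHom M N (Uc i) => χ.app (V ⊓ Uc i) inf_le_right
    (res M inf_le_left s)) (h i)
  exact this

section glue

variable {ι : Type*} (Uc : ι → X.Opens) (hU : ∀ i, Uc i ≤ U) (hcov : U ≤ ⨆ i, Uc i)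
  (φ : ∀ i, LocHom M N (Uc i))
  (hφ : ∀ i j, (φ i).restrict (inf_le_left : Uc i ⊓ Uc j ≤ Uc i) =
    (φ j).restrict (inf_le_right : Uc i ⊓ Uc j ≤ Uc j))

include hφ in
lemma glue_compat_app (i j : ι) (W : X.Opens) (hi : W ≤ Uc i) (hj : W ≤ Uc j) (x : Γ(M, W)) :
    (φ i).app W hi x = (φ j).app W hj x := by
  have := congrArg (fun χ : LocHom M N (Uc i ⊓ Uc j) => χ.app W (le_inf hi hj) x) (hφ i j)
  exact this

include hcov hφ in
lemma glue_exists (V : X.Opens) (hV : V ≤ U) (s : Γ(M, V)) :
    ∃! t : Γ(N, V), ∀ i, res N (inf_le_left : V ⊓ Uc i ≤ V) t =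
      (φ i).app (V ⊓ Uc i) inf_le_right (res M inf_le_left s) := by
  refine sec_glue N V (fun i => V ⊓ Uc i) (fun i => inf_le_left) (le_iSup_inf Uc hV hcov)
    (fun i => (φ i).app (V ⊓ Uc i) inf_le_right (res M inf_le_left s)) ?_
  intro i j
  rw [← (φ i).map_res, ← (φ j).map_res, res_res, res_res]
  exact glue_compat_app Uc φ hφ i j _ _ _ _

/-- The sections of the glued morphism. -/
noncomputable def glueApp (V : X.Opens) (hV : V ≤ U) (s : Γ(M, V)) : Γ(N, V) :=
  (glue_exists Uc hcov φ hφ V hV s).exists.choose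

lemma glueApp_spec (V : X.Opens) (hV : V ≤ U) (s : Γ(M, V)) (i : ι) :
    res N (inf_le_left : V ⊓ Uc i ≤ V) (glueApp Uc hcov φ hφ V hV s) =
      (φ i).app (V ⊓ Uc i) inf_le_right (res M inf_le_left s) :=
  (glue_exists Uc hcov φ hφ V hV s).exists.choose_spec i

lemma glueApp_eq (V : X.Opens) (hV : V ≤ U) (s : Γ(M, V)) (t : Γ(N, V))
    (ht : ∀ i, res N (inf_le_left : V ⊓ Uc i ≤ V) t =
      (φ i).app (V ⊓ Uc i) inf_le_right (res M inf_le_left s)) :
    t = glueApp Uc hcov φ hφ V hV s :=
  (glue_exists Uc hcov φ hφ V hV s).unique ht (glueApp_spec Uc hcov φ hφ V hV s)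

/-- Gluing of local morphisms. -/
noncomputable def glue : LocHom M N U where
  app V hV s := glueApp Uc hcov φ hφ V hV s
  map_add V hV s t := by
    symm
    apply glueApp_eq
    intro i
    rw [res_add, glueApp_spec, glueApp_spec, res_add, (φ i).map_add]
  map_smul V hV r s := by
    symm
    apply glueApp_eq
    intro i
    rw [res_smul, glueApp_spec, res_smul, (φ i).map_smul]
  map_res V V' hV hV' s := by
    symm
    apply glueApp_eq
    intro i
    rw [res_res, res_res]
    have h1 : V' ⊓ Uc i ≤ V ⊓ Uc i := inf_le_inf_right _ hV'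
    have := congrArg (res N h1) (glueApp_spec Uc hcov φ hφ V hV s i)
    rw [res_res, ← (φ i).map_res, res_res] at this
    exact this

lemma glue_restrict (i : ι) : (glue Uc hcov φ hφ).restrict (hU i) = φ i := by
  ext V hV s
  refine sec_ext N V (fun j => V ⊓ Uc j) (fun j => inf_le_left)
    (le_iSup_inf Uc (hV.trans (hU i)) hcov) _ _ ?_
  intro j
  change res N _ (glueApp Uc hcov φ hφ V (hV.trans (hU i)) s) = _
  rw [glueApp_spec, ← (φ i).map_res]
  exact glue_compat_app Uc φ hφ j i _ _ _ _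

end glue


/-- A local morphism is an isomorphism if it is bijective on all sections. -/
def IsIso (φ : LocHom M N U) : Prop :=
  ∀ (V : X.Opens) (h : V ≤ U), Function.Bijective (φ.app V h)

lemma IsIso.restrict {φ : LocHom M N U} (hφ : φ.IsIso) {U' : X.Opens} (h : U' ≤ U) :
    (φ.restrict h).IsIso := fun V hV => hφ V (hV.trans h)

lemma isIso_id : (LocHom.id M U).IsIso := fun _ _ => Function.bijective_id

lemma IsIso.comp {φ : LocHom M N U} {ψ : LocHom N P U} (hφ : φ.IsIso) (hψ : ψ.IsIso) :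
    (φ.comp ψ).IsIso := fun V h => (hψ V h).comp (hφ V h)

/-- The inverse of a local isomorphism. -/
noncomputable def inv (φ : LocHom M N U) (hφ : φ.IsIso) : LocHom N M U where
  app V h t := (Equiv.ofBijective _ (hφ V h)).symm t
  map_add V h s t := by
    apply (hφ V h).1
    rw [φ.map_add]
    simp only [Equiv.ofBijective_apply_symm_apply]
  map_smul V h r s := by
    apply (hφ V h).1
    rw [φ.map_smul]
    simp only [Equiv.ofBijective_apply_symm_apply]
  map_res V V' h h' s := by
    apply (hφ V' (h'.trans h)).1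
    rw [φ.map_res V V' h h']
    simp only [Equiv.ofBijective_apply_symm_apply]

@[simp] lemma app_inv_app (φ : LocHom M N U) (hφ : φ.IsIso) (V : X.Opens) (h : V ≤ U)
    (t : Γ(N, V)) : φ.app V h ((φ.inv hφ).app V h t) = t :=
  Equiv.ofBijective_apply_symm_apply _ (hφ V h) t

@[simp] lemma inv_app_app (φ : LocHom M N U) (hφ : φ.IsIso) (V : X.Opens) (h : V ≤ U)
    (s : Γ(M, V)) : (φ.inv hφ).app V h (φ.app V h s) = s :=
  Equiv.ofBijective_symm_apply_apply _ (hφ V h) s

lemma isIso_inv (φ : LocHom M N U) (hφ : φ.IsIso) : (φ.inv hφ).IsIso := fun V h =>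
  ⟨fun a b hab => by simpa using congrArg (φ.app V h) hab,
    fun s => ⟨φ.app V h s, by simp⟩⟩

/-- Being an isomorphism is local. -/
lemma isIso_of_cover {ι : Type*} (Uc : ι → X.Opens) (hU : ∀ i, Uc i ≤ U)
    (hcov : U ≤ ⨆ i, Uc i) (φ : LocHom M N U) (h : ∀ i, (φ.restrict (hU i)).IsIso) :
    φ.IsIso := by
  intro V hV
  have hinj : ∀ (W : X.Opens) (hW : W ≤ U), Function.Injective (φ.app W hW) := by
    intro W hW s s' hss'
    refine sec_ext M W (fun i => W ⊓ Uc i) (fun i => inf_le_left) (le_iSup_inf Uc hW hcov) _ _ ?_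
    intro i
    apply (h i (W ⊓ Uc i) inf_le_right).1
    change φ.app _ _ _ = φ.app _ _ _
    rw [φ.map_res W (W ⊓ Uc i) hW inf_le_left, φ.map_res W (W ⊓ Uc i) hW inf_le_left, hss']
  refine ⟨hinj V hV, fun t => ?_⟩
  have hex : ∀ i, ∃ s : Γ(M, V ⊓ Uc i), φ.app (V ⊓ Uc i) (inf_le_left.trans hV) s =
      res N inf_le_left t := fun i => (h i (V ⊓ Uc i) inf_le_right).2 _
  choose sf hsf using hex
  obtain ⟨s, hs, -⟩ := sec_glue M V (fun i => V ⊓ Uc i) (fun i => inf_le_left)
    (le_iSup_inf Uc hV hcov) sf (by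
      intro i j
      apply hinj _ ((inf_le_left.trans inf_le_left).trans hV)
      rw [φ.map_res (V ⊓ Uc i) _ (inf_le_left.trans hV) inf_le_left,
        φ.map_res (V ⊓ Uc j) _ (inf_le_left.trans hV) inf_le_right, hsf, hsf, res_res, res_res])
  refine ⟨s, ?_⟩
  refine sec_ext N V (fun i => V ⊓ Uc i) (fun i => inf_le_left) (le_iSup_inf Uc hV hcov) _ _ ?_
  intro i
  rw [← φ.map_res V (V ⊓ Uc i) hV inf_le_left, hs, hsf]

lemma isIso_toHom (φ : LocHom M N ⊤) (hφ : φ.IsIso) : CategoryTheory.IsIso (toHom φ) := by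
  rw [Scheme.Modules.Hom.isIso_iff_isIso_app]
  intro V
  rw [ConcreteCategory.isIso_iff_bijective]
  exact hφ V le_top

/-- A local isomorphism on `⊤` gives an isomorphism of sheaves of modules. -/
noncomputable def toIso (φ : LocHom M N ⊤) (hφ : φ.IsIso) : M ≅ N :=
  haveI := isIso_toHom φ hφ
  asIso (toHom φ)

lemma isIso_ofHom (f : M ⟶ N) [CategoryTheory.IsIso f] (U : X.Opens) : (ofHom f U).IsIso := by
  intro V _
  have : CategoryTheory.IsIso (f.app V) := inferInstance
  exact (ConcreteCategory.isIso_iff_bijective (f.app V)).mp this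

end LocHom

end Fermat.Agent.S25.ZAR
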