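import Fermat.Agent.S25.ZAR.Loc

/-!
# Local morphisms versus restriction / pullback along an open immersion (helper4770)
-/

set_option autoImplicit false

open CategoryTheory Limits AlgebraicGeometry TopologicalSpace Opposite

universe u

namespace Fermat.Agent.S25.ZAR

variable {X Y : Scheme.{u}} (j : Y ⟶ X) [IsOpenImmersion j] {M N : X.Modules}

lemma le_image_preimage {V : X.Opens} (h : V ≤ j.opensRange) : V ≤ j ''ᵁ j ⁻¹ᵁ V := by
  rw [j.image_preimage_eq_opensRange_inf]
  exact le_inf h le_rfl

/-- Identity cast `Γ(M, j ''ᵁ V') → Γ(M.restrict j, V')`. -/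
noncomputable def toRestr (M : X.Modules) (V' : Y.Opens) (x : Γ(M, j ''ᵁ V')) :
    Γ(M.restrict j, V') := x

/-- Identity cast `Γ(M.restrict j, V') → Γ(M, j ''ᵁ V')`. -/
noncomputable def ofRestr (M : X.Modules) (V' : Y.Opens) (x : Γ(M.restrict j, V')) :
    Γ(M, j ''ᵁ V') := x

section casts

variable (M : X.Modules) (V' : Y.Opens)

@[simp] lemma toRestr_ofRestr (x : Γ(M.restrict j, V')) : toRestr j M V' (ofRestr j M V' x) = x :=
  rfl

@[simp] lemma ofRestr_toRestr (x : Γ(M, j ''ᵁ V')) : ofRestr j M V' (toRestr j M V' x) = x := rfl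

lemma toRestr_add (x y : Γ(M, j ''ᵁ V')) :
    toRestr j M V' (x + y) = toRestr j M V' x + toRestr j M V' y := rfl

lemma ofRestr_add (x y : Γ(M.restrict j, V')) :
    ofRestr j M V' (x + y) = ofRestr j M V' x + ofRestr j M V' y := rfl

lemma ofRestr_smul (r' : Γ(Y, V')) (x : Γ(M.restrict j, V')) :
    ofRestr j M V' (r' • x) = ((j.appIso V').inv r' : Γ(X, j ''ᵁ V')) • ofRestr j M V' x := rfl

lemma toRestr_smul (r : Γ(X, j ''ᵁ V')) (x : Γ(M, j ''ᵁ V')) :
    toRestr j M V' (r • x) = ((j.appIso V').hom r : Γ(Y, V')) • toRestr j M V' x := by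
  have h := ofRestr_smul j M V' ((j.appIso V').hom r) (toRestr j M V' x)
  have h2 : ((j.appIso V').inv ((j.appIso V').hom r) : Γ(X, j ''ᵁ V')) = r := by simp
  rw [h2] at h
  exact h.symm

lemma ofRestr_res {V' W' : Y.Opens} (h : W' ≤ V') (x : Γ(M.restrict j, V')) :
    ofRestr j M W' (res (M.restrict j) h x) = res M (j.image_mono h) (ofRestr j M V' x) := rfl

lemma toRestr_res {V' W' : Y.Opens} (h : W' ≤ V') (x : Γ(M, j ''ᵁ V')) :
    toRestr j M W' (res M (j.image_mono h) x) = res (M.restrict j) h (toRestr j M V' x) := rfl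

end casts


namespace LocHom

variable {j}

/-- Transport a local morphism on `X` to the restrictions along the open immersion `j`. -/
noncomputable def down {U : X.Opens} (φ : LocHom M N U) (U' : Y.Opens) (hU' : j ''ᵁ U' ≤ U) :
    LocHom (M.restrict j) (N.restrict j) U' where
  app V' h x := toRestr j N V' (φ.app (j ''ᵁ V') ((j.image_mono h).trans hU') (ofRestr j M V' x))
  map_add V' h x y := by rw [ofRestr_add, φ.map_add, toRestr_add]
  map_smul V' h r' x := by
    rw [ofRestr_smul, φ.map_smul, toRestr_smul]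
    congr 1
    simp
  map_res V' W' h h' x := by
    rw [ofRestr_res, φ.map_res _ _ ((j.image_mono h).trans hU') (j.image_mono h'), toRestr_res]

@[simp] lemma down_app {U : X.Opens} (φ : LocHom M N U) (U' : Y.Opens) (hU' : j ''ᵁ U' ≤ U)
    (V' : Y.Opens) (h : V' ≤ U') (x : Γ(M.restrict j, V')) :
    (φ.down U' hU').app V' h x =
      toRestr j N V' (φ.app (j ''ᵁ V') ((j.image_mono h).trans hU') (ofRestr j M V' x)) := rfl

lemma IsIso.down {U : X.Opens} {φ : LocHom M N U} (hφ : φ.IsIso) (U' : Y.Opens)
    (hU' : j ''ᵁ U' ≤ U) : (φ.down U' hU').IsIso := fun V' h =>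
  hφ (j ''ᵁ V') ((j.image_mono h).trans hU')

lemma preimage_le_of_le_image {U' : Y.Opens} {V : X.Opens} (h : V ≤ j ''ᵁ U') : j ⁻¹ᵁ V ≤ U' := by
  have := j.preimage_mono h
  rwa [j.preimage_image_eq] at this

/-- Transport a local morphism between restrictions along `j` to a local morphism on `X`. -/
noncomputable def up {U' : Y.Opens} (ψ : LocHom (M.restrict j) (N.restrict j) U') :
    LocHom M N (j ''ᵁ U') where
  app V h s := res N (le_image_preimage j (h.trans (j.image_le_opensRange U')))
    (ofRestr j N _ (ψ.app (j ⁻¹ᵁ V) (preimage_le_of_le_image h)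
      (toRestr j M _ (res M (j.image_preimage_le V) s))))
  map_add V h s t := by
    rw [res_add, toRestr_add, ψ.map_add, ofRestr_add, res_add]
  map_smul V h r s := by
    rw [res_smul, toRestr_smul, ψ.map_smul, ofRestr_smul, res_smul]
    congr 1
    have h1 := le_image_preimage j (h.trans (j.image_le_opensRange U'))
    have : ((j.appIso (j ⁻¹ᵁ V)).inv ((j.appIso (j ⁻¹ᵁ V)).hom (resO (j.image_preimage_le V) r)) :
        Γ(X, j ''ᵁ j ⁻¹ᵁ V)) = resO (j.image_preimage_le V) r := by simp
    rw [this, resO_resO, resO_self]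
  map_res V V' h h' s := by
    have h1 : j ⁻¹ᵁ V' ≤ j ⁻¹ᵁ V := j.preimage_mono h'
    rw [res_res, res_res]
    have e1 : toRestr j M (j ⁻¹ᵁ V') (res M ((j.image_preimage_le V').trans h') s) =
        res (M.restrict j) h1 (toRestr j M (j ⁻¹ᵁ V) (res M (j.image_preimage_le V) s)) := by
      rw [← toRestr_res, res_res]
    rw [e1, ψ.map_res _ _ (preimage_le_of_le_image h) h1, ofRestr_res, res_res]

lemma IsIso.up {U' : Y.Opens} {ψ : LocHom (M.restrict j) (N.restrict j) U'} (hψ : ψ.IsIso) :
    (ψ.up).IsIso := by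
  intro V h
  have h1 := le_image_preimage j (h.trans (j.image_le_opensRange U'))
  have hb := hψ (j ⁻¹ᵁ V) (preimage_le_of_le_image h)
  constructor
  · intro s t hst
    have h2 := res_injective_of_eq N h1 (j.image_preimage_le V) hst
    have h3 := hb.1 h2
    exact res_injective_of_eq M (j.image_preimage_le V) h1 h3
  · intro t
    obtain ⟨x, hx⟩ := hb.2 (toRestr j N _ (res N (j.image_preimage_le V) t))
    refine ⟨res M h1 (ofRestr j M _ x), ?_⟩
    change res N h1 (ofRestr j N _ (ψ.app (j ⁻¹ᵁ V) _ (toRestr j M _ (res M _ (res M h1 _))))) = t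
    rw [res_res, res_self, toRestr_ofRestr, hx, ofRestr_toRestr, res_res, res_self]


variable (j)

/-- A morphism between the restrictions along `j` gives a local morphism on the range of `j`. -/
noncomputable def ofRestrictHom (α : M.restrict j ⟶ N.restrict j) : LocHom M N j.opensRange :=
  ((LocHom.ofHom α ⊤).up).restrict (by rw [j.image_top_eq_opensRange])

lemma isIso_ofRestrictHom (α : M.restrict j ⟶ N.restrict j) [CategoryTheory.IsIso α] :
    (ofRestrictHom j α).IsIso :=
  ((isIso_ofHom α ⊤).up).restrict _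

/-- A local morphism on the range of `j` gives a morphism between the restrictions along `j`. -/
noncomputable def toRestrictHom (φ : LocHom M N j.opensRange) : M.restrict j ⟶ N.restrict j :=
  (φ.down ⊤ (by rw [j.image_top_eq_opensRange])).toHom

lemma isIso_toRestrictHom (φ : LocHom M N j.opensRange) (hφ : φ.IsIso) :
    CategoryTheory.IsIso (toRestrictHom j φ) :=
  isIso_toHom _ (hφ.down _ _)

/-- An isomorphism between the pullbacks along `j` gives a local morphism on the range. -/
noncomputable def ofPullbackIso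
    (e : (Scheme.Modules.pullback j).obj M ≅ (Scheme.Modules.pullback j).obj N) :
    LocHom M N j.opensRange :=
  ofRestrictHom j (((Scheme.Modules.restrictFunctorIsoPullback j).app M ≪≫ e ≪≫
    ((Scheme.Modules.restrictFunctorIsoPullback j).app N).symm).hom)

lemma isIso_ofPullbackIso
    (e : (Scheme.Modules.pullback j).obj M ≅ (Scheme.Modules.pullback j).obj N) :
    (ofPullbackIso j e).IsIso :=
  isIso_ofRestrictHom j _

/-- A local isomorphism on the range of `j` gives an isomorphism between the pullbacks. -/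
noncomputable def toPullbackIso (φ : LocHom M N j.opensRange) (hφ : φ.IsIso) :
    (Scheme.Modules.pullback j).obj M ≅ (Scheme.Modules.pullback j).obj N :=
  haveI := isIso_toRestrictHom j φ hφ
  ((Scheme.Modules.restrictFunctorIsoPullback j).app M).symm ≪≫ asIso (toRestrictHom j φ) ≪≫
    (Scheme.Modules.restrictFunctorIsoPullback j).app N

end LocHom

end Fermat.Agent.S25.ZAR
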