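import Fermat.Agent.S25.ZAR.Ev

/-!
# Rigidified invertible sheaves: normalised local isomorphisms are unique, hence glue (helper4770)

Abstract setting: `f : X ⟶ T` with a section `σ`, and `Γ(T, W) → Γ(X, f⁻¹W)` surjective for the
opens `W` of `T` ("`f_* 𝒪_X = 𝒪_T`").
-/

set_option autoImplicit false

open CategoryTheory Limits AlgebraicGeometry TopologicalSpace Opposite

universe u

namespace Fermat.Agent.S25.ZAR

variable {X T : Scheme.{u}}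

lemma app_eq_resO_of_eq_id (a : T ⟶ T) (ha : a = 𝟙 T) (W : T.Opens) (w : Γ(T, W))
    (h : a ⁻¹ᵁ W ≤ W) : a.app W w = resO h w := by
  subst ha
  have h0 : (homOfLE h).op = 𝟙 (op W) := rfl
  have h1 : T.presheaf.map (homOfLE h).op = 𝟙 _ := by rw [h0]; exact T.presheaf.map_id _
  have h2 : (𝟙 T : T ⟶ T).app W = 𝟙 _ := Scheme.Hom.id_app W
  simp only [resO]
  rw [h1, h2]

section sect

variable (f : X ⟶ T) (σ : T ⟶ X) (hσ : σ ≫ f = 𝟙 T)

include hσ in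
lemma preimage_preimage_eq (W : T.Opens) : σ ⁻¹ᵁ f ⁻¹ᵁ W = W := by
  have : (σ ≫ f) ⁻¹ᵁ W = W := by rw [hσ]; rfl
  exact this

include hσ in
lemma sigma_f_app (W : T.Opens) (w : Γ(T, W)) (h : W ≤ σ ⁻¹ᵁ f ⁻¹ᵁ W) :
    resO h (σ.app (f ⁻¹ᵁ W) (f.app W w)) = w := by
  have h' : σ ⁻¹ᵁ f ⁻¹ᵁ W ≤ W := le_of_eq (preimage_preimage_eq f σ hσ W)
  have h2 : σ.app (f ⁻¹ᵁ W) (f.app W w) = resO h' w :=
    app_eq_resO_of_eq_id (σ ≫ f) hσ W w h'
  rw [h2, resO_resO, resO_self]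

include hσ in
lemma sigma_f_app' (W : T.Opens) (w : Γ(T, W)) (h' : σ ⁻¹ᵁ f ⁻¹ᵁ W ≤ W) :
    σ.app (f ⁻¹ᵁ W) (f.app W w) = resO h' w :=
  app_eq_resO_of_eq_id (σ ≫ f) hσ W w h'

include hσ in
lemma sigma_mem (W : T.Opens) (p : T) (hp : p ∈ W) : σ p ∈ f ⁻¹ᵁ W := by
  have : p ∈ σ ⁻¹ᵁ f ⁻¹ᵁ W := by rw [preimage_preimage_eq f σ hσ W]; exact hp
  exact this

end sect

section gens

variable {L L' : X.Modules}

/-- A local isomorphism maps generators to generators. -/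
lemma IsGen.map {U : X.Opens} (φ : LocHom L L' U) (hφ : φ.IsIso) {U' : X.Opens} (hU' : U' ≤ U)
    {s : Γ(L, U')} (hs : IsGen L U' s) : IsGen L' U' (φ.app U' hU' s) := by
  intro V h
  have key : (fun r : Γ(X, V) => r • res L' h (φ.app U' hU' s)) =
      fun r => φ.app V (h.trans hU') (r • res L h s) := by
    funext r
    rw [φ.map_smul, φ.map_res U' V hU' h]
  rw [key]
  exact (hφ V (h.trans hU')).comp (hs V h)

/-- Scaling a local isomorphism by a unit gives a local isomorphism. -/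
lemma LocHom.isIso_smul {U : X.Opens} (φ : LocHom L L' U) (hφ : φ.IsIso) (u u' : Γ(X, U))
    (huu' : u * u' = 1) : (LocHom.smul u φ).IsIso := by
  intro V h
  have h1 : resO h u * resO h u' = 1 := by rw [← resO_mul, huu', resO_one]
  have h2 : resO h u' * resO h u = 1 := by rw [mul_comm, h1]
  constructor
  · intro a b hab
    simp only [LocHom.smul_app] at hab
    have := congrArg (fun z => resO h u' • z) hab
    simp only [smul_smul, h2, one_smul] at this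
    exact (hφ V h).1 this
  · intro t
    obtain ⟨a, ha⟩ := (hφ V h).2 (resO h u' • t)
    exact ⟨a, by simp only [LocHom.smul_app, ha, smul_smul, h1, one_smul]⟩

end gens

section norm

variable (f : X ⟶ T) (σ : T ⟶ X) (hσ : σ ≫ f = 𝟙 T)
variable {L L' : X.Modules}

include hσ in
/-- `σ⁻¹ V ≤ W` for `V ≤ f⁻¹ W`. -/
lemma preimage_le (W : T.Opens) {V : X.Opens} (h : V ≤ f ⁻¹ᵁ W) : σ ⁻¹ᵁ V ≤ W :=
  (σ.preimage_mono h).trans (le_of_eq (preimage_preimage_eq f σ hσ W))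

include hσ in
lemma exists_gen_near (hL : LocInv L) (W : T.Opens) (p : T) (hp : p ∈ W) :
    ∃ (U' : X.Opens) (_ : U' ≤ f ⁻¹ᵁ W) (_ : p ∈ σ ⁻¹ᵁ U') (g : Γ(L, U')), IsGen L U' g := by
  obtain ⟨U₀, hU₀, s, hs⟩ := hL (σ p)
  exact ⟨f ⁻¹ᵁ W ⊓ U₀, inf_le_left, ⟨sigma_mem f σ hσ W p hp, hU₀⟩, res L inf_le_right s,
    hs.restrict _⟩

variable (ρ : (Scheme.Modules.pullback σ).obj L ⟶ OO T) [CategoryTheory.IsIso ρ]
variable (ρ' : (Scheme.Modules.pullback σ).obj L' ⟶ OO T)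

include hσ in
/-- A scalar on `W` acting trivially on all evaluations is `1`. -/
theorem eq_one_of_forall_ev (hL : LocInv L) (W : T.Opens) (a : Γ(T, W))
    (h : ∀ (V : X.Opens) (hV : V ≤ f ⁻¹ᵁ W) (t : Γ(L, V)),
      resO (preimage_le f σ hσ W hV) a * ev σ L ρ V t = ev σ L ρ V t) : a = 1 := by
  choose U' hU' hpU' g hg using fun p : W => exists_gen_near f σ hσ hL W p.1 p.2
  refine secO_ext W (fun p : W => σ ⁻¹ᵁ U' p) (fun p => preimage_le f σ hσ W (hU' p)) ?_ a 1 ?_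
  · intro q hq
    exact Opens.mem_iSup.mpr ⟨⟨q, hq⟩, hpU' ⟨q, hq⟩⟩
  · intro p
    have h1 := h (U' p) (hU' p) (g p)
    obtain ⟨b, hb⟩ := (isUnit_ev_of_isGen σ ρ (hg p)).exists_right_inv
    rw [resO_one]
    have h2 := congrArg (fun z => z * b) h1
    simp only [mul_assoc, hb, mul_one] at h2
    exact h2

include hσ in
/-- Every local morphism is, on evaluations, multiplication by a scalar of the base. -/
theorem exists_scalar (hL : LocInv L) (W : T.Opens) (φ : LocHom L L' (f ⁻¹ᵁ W)) :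
    ∃ v : Γ(T, W), ∀ (V : X.Opens) (hV : V ≤ f ⁻¹ᵁ W) (t : Γ(L, V)),
      ev σ L' ρ' V (φ.app V hV t) = resO (preimage_le f σ hσ W hV) v * ev σ L ρ V t := by
  choose U' hU' hpU' g hg using fun p : W => exists_gen_near f σ hσ hL W p.1 p.2
  have hWp : ∀ p : W, σ ⁻¹ᵁ U' p ≤ W := fun p => preimage_le f σ hσ W (hU' p)
  have hcov : W ≤ ⨆ p : W, σ ⁻¹ᵁ U' p := by
    intro q hq
    exact Opens.mem_iSup.mpr ⟨⟨q, hq⟩, hpU' ⟨q, hq⟩⟩
  choose einv heinv using fun p : W => (isUnit_ev_of_isGen σ ρ (hg p)).exists_right_inv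
  obtain ⟨vp, hvp⟩ : ∃ vp : ∀ p : W, Γ(T, σ ⁻¹ᵁ U' p), ∀ p, vp p =
      ev σ L' ρ' (U' p) (φ.app (U' p) (hU' p) (g p)) * einv p := ⟨_, fun _ => rfl⟩
  have claimA : ∀ (p : W) (V : X.Opens) (hV : V ≤ U' p) (t : Γ(L, V)),
      ev σ L' ρ' V (φ.app V (hV.trans (hU' p)) t) =
        resO (σ.preimage_mono hV) (vp p) * ev σ L ρ V t := by
    intro p V hV t
    have ht := (hg p).coefHom_smul V hV t
    generalize unitToO V ((hg p).coefHom.app V hV t) = r at ht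
    have e1 : ev σ L ρ V t = σ.app V r * resO (σ.preimage_mono hV) (ev σ L ρ (U' p) (g p)) := by
      rw [← ev_res σ L ρ hV (g p), ← ev_smul, ht]
    have e2 : ev σ L' ρ' V (φ.app V (hV.trans (hU' p)) t) = σ.app V r *
        resO (σ.preimage_mono hV) (ev σ L' ρ' (U' p) (φ.app (U' p) (hU' p) (g p))) := by
      rw [← ev_res σ L' ρ' hV, ← φ.map_res (U' p) V (hU' p) hV, ← ev_smul, ← φ.map_smul, ht]
    have e3 : resO (σ.preimage_mono hV) (einv p) *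
        resO (σ.preimage_mono hV) (ev σ L ρ (U' p) (g p)) = 1 := by
      rw [← resO_mul, mul_comm, heinv, resO_one]
    rw [e1, e2, hvp p, resO_mul]
    linear_combination (σ.app V r *
      resO (σ.preimage_mono hV) (ev σ L' ρ' (U' p) (φ.app (U' p) (hU' p) (g p)))) * (-e3)
  have hcompat : ∀ p q : W,
      resO (inf_le_left : σ ⁻¹ᵁ U' p ⊓ σ ⁻¹ᵁ U' q ≤ σ ⁻¹ᵁ U' p) (vp p) =
      resO (inf_le_right : σ ⁻¹ᵁ U' p ⊓ σ ⁻¹ᵁ U' q ≤ σ ⁻¹ᵁ U' q) (vp q) := by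
    intro p q
    have h1 := claimA p (U' p ⊓ U' q) inf_le_left (res L inf_le_left (g p))
    have h2 := claimA q (U' p ⊓ U' q) inf_le_right (res L inf_le_left (g p))
    have h3 : ev σ L ρ (U' p ⊓ U' q) (res L inf_le_left (g p)) *
        resO (σ.preimage_mono inf_le_left) (einv p) = 1 := by
      rw [ev_res, ← resO_mul, heinv, resO_one]
    have h4 := congrArg (fun z => z * resO (σ.preimage_mono (inf_le_left : U' p ⊓ U' q ≤ U' p))
      (einv p)) (h1.symm.trans h2)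
    simp only [mul_assoc, h3, mul_one] at h4
    exact h4
  obtain ⟨v, hv, -⟩ := secO_glue W (fun p : W => σ ⁻¹ᵁ U' p) hWp hcov vp hcompat
  refine ⟨v, fun V hV t => ?_⟩
  refine secO_ext (σ ⁻¹ᵁ V) (fun p : W => σ ⁻¹ᵁ (V ⊓ U' p))
    (fun p => σ.preimage_mono inf_le_left) ?_ _ _ ?_
  · intro q hq
    have hqW : q ∈ W := preimage_le f σ hσ W hV hq
    exact Opens.mem_iSup.mpr ⟨⟨q, hqW⟩, ⟨hq, hpU' ⟨q, hqW⟩⟩⟩
  · intro p
    rw [← ev_res σ L' ρ' inf_le_left, ← φ.map_res V (V ⊓ U' p) hV inf_le_left,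
      claimA p (V ⊓ U' p) inf_le_right, resO_mul, ← ev_res σ L ρ inf_le_left, ← hv p,
      resO_resO, resO_resO]

end norm

section norm2

variable (f : X ⟶ T) (σ : T ⟶ X) (hσ : σ ≫ f = 𝟙 T)
variable {L L' : X.Modules}
variable (ρ : (Scheme.Modules.pullback σ).obj L ⟶ OO T) [CategoryTheory.IsIso ρ]
variable (ρ' : (Scheme.Modules.pullback σ).obj L' ⟶ OO T) [CategoryTheory.IsIso ρ']

include hσ in
/-- For a local isomorphism the scalar of `exists_scalar` is a unit. -/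
theorem exists_unit_scalar (hL : LocInv L) (hL' : LocInv L') (W : T.Opens)
    (φ : LocHom L L' (f ⁻¹ᵁ W)) (hφ : φ.IsIso) :
    ∃ v v' : Γ(T, W), v' * v = 1 ∧ ∀ (V : X.Opens) (hV : V ≤ f ⁻¹ᵁ W) (t : Γ(L, V)),
      ev σ L' ρ' V (φ.app V hV t) = resO (preimage_le f σ hσ W hV) v * ev σ L ρ V t := by
  obtain ⟨v, hv⟩ := exists_scalar f σ hσ ρ ρ' hL W φ
  obtain ⟨v', hv'⟩ := exists_scalar f σ hσ ρ' ρ hL' W (φ.inv hφ)
  refine ⟨v, v', ?_, hv⟩
  refine eq_one_of_forall_ev f σ hσ ρ hL W (v' * v) (fun V hV t => ?_)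
  have h1 := hv' V hV (φ.app V hV t)
  rw [LocHom.inv_app_app, hv V hV t] at h1
  rw [resO_mul, mul_assoc]
  exact h1.symm

/-- A local morphism is normalised if it is compatible with the evaluations. -/
def Normalised (U : X.Opens) (φ : LocHom L L' U) : Prop :=
  ∀ (V : X.Opens) (h : V ≤ U) (t : Γ(L, V)), ev σ L' ρ' V (φ.app V h t) = ev σ L ρ V t

omit [CategoryTheory.IsIso ρ] [CategoryTheory.IsIso ρ'] in
lemma Normalised.restrict {U : X.Opens} {φ : LocHom L L' U} (hφ : Normalised σ ρ ρ' U φ)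
    {U' : X.Opens} (h : U' ≤ U) : Normalised σ ρ ρ' U' (φ.restrict h) :=
  fun V hV t => hφ V (hV.trans h) t

include hσ in
/-- Every local isomorphism over `f⁻¹ W` can be normalised. -/
theorem exists_normalised (hL : LocInv L) (hL' : LocInv L') (W : T.Opens)
    (φ : LocHom L L' (f ⁻¹ᵁ W)) (hφ : φ.IsIso) :
    ∃ φ₁ : LocHom L L' (f ⁻¹ᵁ W), φ₁.IsIso ∧ Normalised σ ρ ρ' (f ⁻¹ᵁ W) φ₁ := by
  obtain ⟨v, v', hvv', hv⟩ := exists_unit_scalar f σ hσ ρ ρ' hL hL' W φ hφ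
  refine ⟨LocHom.smul (f.app W v') φ, ?_, ?_⟩
  · refine LocHom.isIso_smul φ hφ (f.app W v') (f.app W v) ?_
    rw [← map_mul, hvv', map_one]
  · intro V h t
    rw [LocHom.smul_app, ev_smul, app_resO, hv V h t,
      sigma_f_app' f σ hσ W v' (le_of_eq (preimage_preimage_eq f σ hσ W)), resO_resO, ← mul_assoc,
      ← resO_mul, hvv', resO_one, one_mul]

omit [CategoryTheory.IsIso ρ'] in
include hσ in
/-- Normalised local isomorphisms over `f⁻¹ W` are unique. -/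
theorem normalised_unique (hL : LocInv L) (W : T.Opens)
    (hO : Function.Surjective (f.app W)) (φ φ' : LocHom L L' (f ⁻¹ᵁ W)) (hφ : φ.IsIso)
    (hn : Normalised σ ρ ρ' (f ⁻¹ᵁ W) φ) (hn' : Normalised σ ρ ρ' (f ⁻¹ᵁ W) φ') : φ = φ' := by
  obtain ⟨u, hu⟩ := LocHom.exists_smul_of_isIso hL φ φ' hφ
  obtain ⟨v₀, rfl⟩ := hO u
  have hv₀ : v₀ = 1 := by
    refine eq_one_of_forall_ev f σ hσ ρ hL W v₀ (fun V hV t => ?_)
    have h1 := hn' V hV t
    rw [hu V hV t, ev_smul, hn V hV t, app_resO,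
      sigma_f_app' f σ hσ W v₀ (le_of_eq (preimage_preimage_eq f σ hσ W)), resO_resO] at h1
    exact h1
  ext V h t
  rw [hu V h t, hv₀, map_one, resO_one, one_smul]

include hσ ρ ρ' in
/-- **(sep), abstract form.**  Two rigidified invertible sheaves on `X` which are isomorphic over
the preimages of the members of an open cover of `T` are isomorphic. -/
theorem sep_abstract (hO : ∀ W : T.Opens, Function.Surjective (f.app W))
    (hL : LocInv L) (hL' : LocInv L') {ι : Type*} (Wc : ι → T.Opens) (hcov : ⊤ ≤ ⨆ i, Wc i)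
    (φ : ∀ i, LocHom L L' (f ⁻¹ᵁ Wc i)) (hφ : ∀ i, (φ i).IsIso) : Nonempty (L ≅ L') := by
  choose ψ hψiso hψn using fun i => exists_normalised f σ hσ ρ ρ' hL hL' (Wc i) (φ i) (hφ i)
  have hcompat : ∀ i j, (ψ i).restrict (inf_le_left : f ⁻¹ᵁ Wc i ⊓ f ⁻¹ᵁ Wc j ≤ f ⁻¹ᵁ Wc i) =
      (ψ j).restrict (inf_le_right : f ⁻¹ᵁ Wc i ⊓ f ⁻¹ᵁ Wc j ≤ f ⁻¹ᵁ Wc j) := by
    intro i j
    exact normalised_unique f σ hσ ρ ρ' hL (Wc i ⊓ Wc j) (hO _)
      ((ψ i).restrict (inf_le_left : f ⁻¹ᵁ Wc i ⊓ f ⁻¹ᵁ Wc j ≤ f ⁻¹ᵁ Wc i))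
      ((ψ j).restrict (inf_le_right : f ⁻¹ᵁ Wc i ⊓ f ⁻¹ᵁ Wc j ≤ f ⁻¹ᵁ Wc j))
      ((hψiso i).restrict _) ((hψn i).restrict σ ρ ρ' _) ((hψn j).restrict σ ρ ρ' _)
  have hcovX : (⊤ : X.Opens) ≤ ⨆ i, f ⁻¹ᵁ Wc i := by
    intro x _
    obtain ⟨i, hi⟩ := Opens.mem_iSup.mp (hcov (show f x ∈ (⊤ : T.Opens) from trivial))
    exact Opens.mem_iSup.mpr ⟨i, hi⟩
  let Ψ : LocHom L L' ⊤ := LocHom.glue (fun i => f ⁻¹ᵁ Wc i) hcovX ψ hcompat
  have hΨ : Ψ.IsIso := by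
    refine LocHom.isIso_of_cover (fun i => f ⁻¹ᵁ Wc i) (fun i => le_top) hcovX Ψ (fun i => ?_)
    rw [LocHom.glue_restrict (fun i => f ⁻¹ᵁ Wc i) (fun i => le_top) hcovX ψ hcompat i]
    exact hψiso i
  exact ⟨LocHom.toIso Ψ hΨ⟩

end norm2

end Fermat.Agent.S25.ZAR
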